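import Fermat.Agent.S21.InjCore
import Fermat.Prelude.Def_ModularCurve_PeriodHomPair

set_option autoImplicit false

open UpperHalfPlane Complex Function Filter Topology
open scoped MatrixGroups Manifold ComplexConjugate

namespace Fermat.Agent.S21

open CongruenceSubgroup ModularCurve ModularCurve.Period

/-- The anti-holomorphic involution `z ↦ -conj z` of the upper half plane. -/
noncomputable def negConj (z : ℍ) : ℍ := ⟨-conj (z : ℂ), by simpa using z.im_pos⟩

@[simp] lemma coe_negConj (z : ℍ) : ((negConj z : ℍ) : ℂ) = -conj (z : ℂ) := rfl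

@[simp] lemma im_negConj (z : ℍ) : (negConj z).im = z.im := by
  change (-conj (z : ℂ)).im = (z : ℂ).im
  simp

lemma negConj_smul (γ : SL(2, ℤ)) (z : ℍ) : negConj (γ • z) = jConjSL γ • negConj z := by
  ext
  rw [coe_negConj, coe_specialLinearGroup_apply, coe_specialLinearGroup_apply]
  simp only [jConjSL_coe, jConjMat_apply_zero_zero, jConjMat_apply_zero_one,
    jConjMat_apply_one_zero, jConjMat_apply_one_one, coe_negConj]
  simp only [map_div₀, map_add, map_mul, algebraMap_int_eq, eq_intCast,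
    Int.cast_neg, Complex.ofReal_neg, Complex.ofReal_intCast, map_intCast]
  rw [← neg_div]
  congr 1 <;> ring

lemma tendsto_negConj : Tendsto negConj atImInfty atImInfty := by
  rw [atImInfty, tendsto_comap_iff]
  have : (UpperHalfPlane.im ∘ negConj) = UpperHalfPlane.im := by
    ext z; simp
  rw [this]
  exact tendsto_comap

lemma hasDerivAt_star {F f : ℍ → ℂ} (hF : ∀ τ : ℍ, HasDerivAt (F ∘ ofComplex) (f τ) ↑τ) (τ : ℍ) :
    HasDerivAt ((fun z : ℍ => conj (F (negConj z))) ∘ ofComplex) (-conj (f (negConj τ))) ↑τ := by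
  have h1 := (hF (negConj τ)).conj_conj
  have h2 : conj ((negConj τ : ℍ) : ℂ) = -(τ : ℂ) := by simp
  rw [h2] at h1
  have h3 := h1.comp (τ : ℂ) (hasDerivAt_neg (τ : ℂ))
  have h4 : HasDerivAt ((⇑(starRingEnd ℂ) ∘ (F ∘ ofComplex) ∘ ⇑(starRingEnd ℂ)) ∘ Neg.neg)
      (-conj (f (negConj τ))) (τ : ℂ) := by
    simpa using h3
  refine h4.congr_of_eventuallyEq ?_
  filter_upwards [isOpen_upperHalfPlaneSet.mem_nhds τ.im_pos] with z hz
  have hz' : 0 < (conj (-z)).im := by simpa using hz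
  simp only [comp_apply, ofComplex_apply_of_im_pos hz, ofComplex_apply_of_im_pos hz']
  congr 2

theorem eq_zero_of_period_symm (N : ℕ) [NeZero N] {f : CuspForm (Gamma0 N) 2} {F : ℍ → ℂ}
    (hF : HasEquivariantPrimitive N f F) (ε : ℝ) (hε : ε * ε = 1)
    (h : ∀ γ : Gamma0 N, hF.2.2.1.period (jConjGamma0 N γ) = ε * hF.2.2.1.period γ) : f = 0 := by
  set p : Gamma0 N → ℂ := fun γ => hF.2.2.1.period γ with hp
  set Fs : ℍ → ℂ := fun z => conj (F (negConj z)) with hFs
  set fs : ℍ → ℂ := fun z => conj (f (negConj z)) with hfs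
  have hεC : (ε : ℂ) * ε = 1 := by exact_mod_cast hε
  have hFs_der : ∀ τ : ℍ, HasDerivAt (Fs ∘ ofComplex) (-fs τ) ↑τ := hasDerivAt_star hF.1
  have hper : ∀ (γ : Gamma0 N) (z : ℍ), F ((γ : SL(2, ℤ)) • z) - F z = p γ :=
    hF.2.2.1.sub_eq_period
  have hFs_per : ∀ (γ : Gamma0 N) (z : ℍ), Fs ((γ : SL(2, ℤ)) • z) - Fs z = ε * conj (p γ) := by
    intro γ z
    have h1 := hper (jConjGamma0 N γ) (negConj z)
    rw [jConjGamma0_coe, ← negConj_smul] at h1
    simp only [hFs]
    rw [← map_sub, h1, hp]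
    simp only
    rw [h γ, map_mul, Complex.conj_ofReal]
  have hFs_lim : ∀ δ : SL(2, ℤ), ∃ L : ℂ, Tendsto (fun w : ℍ => Fs (δ • w)) atImInfty (𝓝 L) := by
    intro δ
    obtain ⟨L, hL⟩ := hF.2.2.2 (jConjSL δ)
    refine ⟨conj L, ?_⟩
    have h1 := (Complex.continuous_conj.tendsto L).comp (hL.comp tendsto_negConj)
    refine h1.congr ?_
    intro w
    simp only [comp_apply, hFs, negConj_smul]
  have key1 : ∀ τ, f τ + ε * fs τ = 0 := by
    refine deriv_eq_zero_of_re_invariant N (fun z => F z - ε * Fs z) (fun τ => f τ + ε * fs τ)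
      ?_ ?_ ?_
    · intro τ
      have := (hF.1 τ).sub ((hFs_der τ).const_mul (ε : ℂ))
      have e : f τ + ε * fs τ = f τ - ε * -fs τ := by ring
      simp only [e]
      exact this
    · intro γ hγ
      refine ⟨2 * (p ⟨γ, hγ⟩).im, fun z => ?_⟩
      have h1 := hper ⟨γ, hγ⟩ z
      have h2 := hFs_per ⟨γ, hγ⟩ z
      simp only at h1 h2
      have h3 : F (γ • z) - ε * Fs (γ • z) - (F z - ε * Fs z)
          = p ⟨γ, hγ⟩ - conj (p ⟨γ, hγ⟩) := by
        linear_combination h1 - ε * h2 - conj (p ⟨γ, hγ⟩) * hεC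
      rw [h3, Complex.sub_conj]
    · intro δ
      obtain ⟨L, hL⟩ := hF.2.2.2 δ
      obtain ⟨L', hL'⟩ := hFs_lim δ
      exact ⟨_, hL.sub (hL'.const_mul (ε : ℂ))⟩
  have key2 : ∀ τ, Complex.I * (f τ - ε * fs τ) = 0 := by
    refine deriv_eq_zero_of_re_invariant N (fun z => Complex.I * (F z + ε * Fs z))
      (fun τ => Complex.I * (f τ - ε * fs τ)) ?_ ?_ ?_
    · intro τ
      have := ((hF.1 τ).add ((hFs_der τ).const_mul (ε : ℂ))).const_mul Complex.I
      have e : Complex.I * (f τ - ε * fs τ) = Complex.I * (f τ + ε * -fs τ) := by ring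
      simp only [e]
      exact this
    · intro γ hγ
      refine ⟨2 * (p ⟨γ, hγ⟩).re, fun z => ?_⟩
      have h1 := hper ⟨γ, hγ⟩ z
      have h2 := hFs_per ⟨γ, hγ⟩ z
      simp only at h1 h2
      have h3 : Complex.I * (F (γ • z) + ε * Fs (γ • z)) - Complex.I * (F z + ε * Fs z)
          = Complex.I * (p ⟨γ, hγ⟩ + conj (p ⟨γ, hγ⟩)) := by
        linear_combination Complex.I * h1 + Complex.I * ε * h2
          + Complex.I * conj (p ⟨γ, hγ⟩) * hεC
      rw [h3, Complex.add_conj]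
      push_cast
      ring
    · intro δ
      obtain ⟨L, hL⟩ := hF.2.2.2 δ
      obtain ⟨L', hL'⟩ := hFs_lim δ
      exact ⟨_, (hL.add (hL'.const_mul (ε : ℂ))).const_mul Complex.I⟩
  ext τ
  have h1 := key1 τ
  have h2 := (mul_eq_zero.mp (key2 τ)).resolve_left Complex.I_ne_zero
  have h3 : (2 : ℂ) * f τ = 0 := by linear_combination h1 + h2
  simpa using h3

/-- Injectivity of the period pair map, given existence of primitives and linearity. -/
theorem periodHomPair_injective_of (N : ℕ) [NeZero N] (hlin : ExistsPeriodMapLinear N)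
    (hex : ∀ f : CuspForm (Gamma0 N) 2, ∃ F : ℍ → ℂ, HasEquivariantPrimitive N f F) :
    Function.Injective (periodHomPair N) := by
  obtain ⟨pml, hpml, hdef⟩ := periodHomPair_def N hlin
  rw [← LinearMap.ker_eq_bot, LinearMap.ker_eq_bot']
  rintro ⟨f, g⟩ hfg
  rw [hdef] at hfg
  have hpt : ∀ γ : Gamma0 N, periodMap N f (Additive.ofMul γ)
      + periodMap N f (Additive.ofMul (jConjGamma0 N γ))
      + (periodMap N g (Additive.ofMul γ) - periodMap N g (Additive.ofMul (jConjGamma0 N γ)))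
      = 0 := by
    intro γ
    have := DFunLike.congr_fun hfg (Additive.ofMul γ)
    simpa [hpml] using this
  obtain ⟨F, hF⟩ := hex f
  obtain ⟨G, hG⟩ := hex g
  obtain ⟨F₀, hF₀, hfF⟩ := periodMap_def N f hF
  obtain ⟨G₀, hG₀, hgG⟩ := periodMap_def N g hG
  have hf0 : f = 0 := by
    refine eq_zero_of_period_symm N hF₀ (-1) (by norm_num) fun γ => ?_
    have h1 := hpt γ
    have h2 := hpt (jConjGamma0 N γ)
    rw [jConjGamma0_jConjGamma0] at h2
    rw [hfF] at h1 h2
    simp only [IsEquivariantPrimitive.periodHom_apply] at h1 h2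
    push_cast
    linear_combination (1 / 2 : ℂ) * h1 + (1 / 2 : ℂ) * h2
  have hg0 : g = 0 := by
    refine eq_zero_of_period_symm N hG₀ 1 (by norm_num) fun γ => ?_
    have h1 := hpt γ
    have h2 := hpt (jConjGamma0 N γ)
    rw [jConjGamma0_jConjGamma0] at h2
    rw [hgG] at h1 h2
    simp only [IsEquivariantPrimitive.periodHom_apply] at h1 h2
    push_cast
    linear_combination (-1 / 2 : ℂ) * h1 + (1 / 2 : ℂ) * h2
  rw [hf0, hg0]
  rfl

end Fermat.Agent.S21
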