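import Mathlib
import Fermat.Prelude.Def_ModularCurve_PeriodHomPair

set_option autoImplicit false

open UpperHalfPlane CongruenceSubgroup Filter Topology ModularCurve ModularCurve.Period
open scoped MatrixGroups

namespace Fermat.Agent.S21

/-- An element of `SL(2, ℤ)` with `trace ^ 2 = 4` can be conjugated (inside `SL(2, ℤ)`) to an
upper triangular matrix. -/
theorem exists_conj_lower_left_eq_zero (γ : SL(2, ℤ))
    (h : (γ : Matrix (Fin 2) (Fin 2) ℤ).trace ^ 2 = 4) :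
    ∃ δ : SL(2, ℤ), (δ⁻¹ * γ * δ) 1 0 = 0 := by
  have hdet : γ 0 0 * γ 1 1 - γ 0 1 * γ 1 0 = 1 := by
    have := γ.det_coe
    rwa [Matrix.det_fin_two] at this
  rw [Matrix.trace_fin_two] at h
  have key : ∀ δ : SL(2, ℤ), (δ⁻¹ * γ * δ) 1 0 =
      γ 1 0 * (δ 0 0) ^ 2 + (γ 1 1 - γ 0 0) * (δ 0 0) * (δ 1 0) - γ 0 1 * (δ 1 0) ^ 2 := by
    intro δ
    rw [Matrix.SpecialLinearGroup.coe_mul, Matrix.SpecialLinearGroup.coe_mul,
      Matrix.SpecialLinearGroup.SL2_inv_expl]
    simp [Matrix.mul_apply, Fin.sum_univ_two]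
    ring
  by_cases hc : γ 1 0 = 0
  · exact ⟨1, by simpa using hc⟩
  · have hpos : 0 < Int.gcd (γ 0 0 - γ 1 1) (2 * γ 1 0) := by
      apply Int.gcd_pos_of_ne_zero_right
      simpa using hc
    obtain ⟨x, y, hxy, hx, hy⟩ := Int.exists_gcd_one hpos
    set g : ℤ := (Int.gcd (γ 0 0 - γ 1 1) (2 * γ 1 0) : ℤ) with hg
    have hg0 : g ≠ 0 := by
      have : (0 : ℤ) < g := by rw [hg]; exact_mod_cast hpos
      exact this.ne'
    obtain ⟨δ, hδ0, hδ1⟩ := (Int.isCoprime_iff_gcd_eq_one.mpr hxy).exists_SL2_col 0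
    refine ⟨δ, ?_⟩
    rw [key, hδ0, hδ1]
    have h2 : g ^ 2 * (γ 1 0 * x ^ 2 + (γ 1 1 - γ 0 0) * x * y - γ 0 1 * y ^ 2) = 0 := by
      have : g ^ 2 * (γ 1 0 * x ^ 2 + (γ 1 1 - γ 0 0) * x * y - γ 0 1 * y ^ 2)
          = γ 1 0 * (x * g) ^ 2 + (γ 1 1 - γ 0 0) * (x * g) * (y * g) - γ 0 1 * (y * g) ^ 2 := by
        ring
      rw [this, ← hx, ← hy]
      linear_combination (-(γ 1 0)) * h + 4 * γ 1 0 * hdet
    rcases mul_eq_zero.mp h2 with h3 | h3
    · exact absurd (pow_eq_zero_iff (two_ne_zero) |>.mp h3) hg0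
    · exact h3

/-- A parabolic (or `± 1`) element of `SL(2, ℤ)` acts, after conjugation, as a translation. -/
theorem exists_conj_smul_eq_T_zpow_smul (γ : SL(2, ℤ))
    (h : (γ : Matrix (Fin 2) (Fin 2) ℤ).trace ^ 2 = 4) :
    ∃ (δ : SL(2, ℤ)) (n : ℤ), ∀ w : ℍ, γ • (δ • w) = δ • (ModularGroup.T ^ n • w) := by
  obtain ⟨δ, hδ⟩ := exists_conj_lower_left_eq_zero γ h
  obtain ⟨n, hn⟩ := ModularGroup.exists_eq_T_zpow_of_c_eq_zero hδ
  refine ⟨δ, n, fun w => ?_⟩
  rw [← hn w, ← mul_smul, ← mul_smul]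
  congr 1
  group

theorem tendsto_T_zpow_smul_atImInfty (n : ℤ) :
    Tendsto (fun w : ℍ => ModularGroup.T ^ n • w) atImInfty atImInfty := by
  rw [atImInfty, tendsto_comap_iff]
  have : (im ∘ fun w : ℍ => ModularGroup.T ^ n • w) = im := by
    funext w
    exact ModularGroup.im_T_zpow_smul w n
  rw [this]
  exact tendsto_comap

/-- The period homomorphism of an equivariant primitive having limits at all cusps is parabolic. -/
theorem isParabolicHom_periodHom {Γ : Subgroup SL(2, ℤ)} {F : ℍ → ℂ}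
    (hF : IsEquivariantPrimitive Γ F)
    (hlim : ∀ δ : SL(2, ℤ), ∃ L : ℂ, Tendsto (fun w : ℍ => F (δ • w)) atImInfty (𝓝 L)) :
    IsParabolicHom Γ hF.periodHom := by
  intro γ hγ
  rw [IsEquivariantPrimitive.periodHom_apply]
  obtain ⟨δ, n, hn⟩ := exists_conj_smul_eq_T_zpow_smul (γ : SL(2, ℤ)) hγ
  obtain ⟨L, hL⟩ := hlim δ
  have h1 : ∀ w : ℍ, F (δ • (ModularGroup.T ^ n • w)) - F (δ • w) = hF.period γ := by
    intro w
    rw [← hn w]
    exact hF.sub_eq_period γ (δ • w)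
  have h2 : Tendsto (fun w : ℍ => F (δ • (ModularGroup.T ^ n • w)) - F (δ • w)) atImInfty
      (𝓝 (L - L)) :=
    (hL.comp (tendsto_T_zpow_smul_atImInfty n)).sub hL
  have h3 : Tendsto (fun _ : ℍ => hF.period γ) atImInfty (𝓝 (L - L)) := by
    simpa only [h1] using h2
  have := tendsto_nhds_unique h3 tendsto_const_nhds
  rw [sub_self] at this
  exact this.symm

theorem periodMap_mem_parabolicHoms (N : ℕ) (f : CuspForm (Gamma0 N) 2) :
    periodMap N f ∈ parabolicHoms ℂ (Gamma0 N) ℂ := by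
  classical
  by_cases h : ∃ F : ℍ → ℂ, HasEquivariantPrimitive N f F
  · obtain ⟨F, hF⟩ := h
    obtain ⟨F₀, h₀, h₁⟩ := periodMap_def N f hF
    rw [h₁, mem_parabolicHoms_iff]
    exact isParabolicHom_periodHom h₀.2.2.1 h₀.2.2.2
  · rw [periodMap, dif_neg h]
    exact Submodule.zero_mem _

/-- `[P]`: the range of the period pairing consists of parabolic homomorphisms. -/
theorem range_periodHomPair_le (N : ℕ) :
    LinearMap.range (periodHomPair N) ≤ parabolicHoms ℂ (Gamma0 N) ℂ := by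
  classical
  by_cases h : ExistsPeriodMapLinear N
  · obtain ⟨pml, hpml, heq⟩ := periodHomPair_def N h
    rintro _ ⟨⟨f, g⟩, rfl⟩
    rw [heq]
    simp only [LinearMap.coprod_apply, LinearMap.comp_apply, LinearMap.add_apply,
      LinearMap.sub_apply, LinearMap.id_apply, hpml]
    exact Submodule.add_mem _
      (Submodule.add_mem _ (periodMap_mem_parabolicHoms N f)
        (charInvolution_mem_parabolicHoms N ℂ ℂ (periodMap_mem_parabolicHoms N f)))
      (Submodule.sub_mem _ (periodMap_mem_parabolicHoms N g)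
        (charInvolution_mem_parabolicHoms N ℂ ℂ (periodMap_mem_parabolicHoms N g)))
  · have : periodHomPair N = 0 := by
      unfold periodHomPair
      rw [dif_neg h]
    rw [this, LinearMap.range_zero]
    exact bot_le

end Fermat.Agent.S21
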