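import Mathlib
import Fermat.Statements.S21
import Fermat.Prelude.Thm_Subgroup_IsArithmetic_exists_nat_mem_strictPeriods_conj
import Fermat.Prelude.Thm_CongruenceSubgroup_one_mem_strictPeriods_Gamma0

set_option autoImplicit false

open UpperHalfPlane hiding I
open Complex Function Filter CongruenceSubgroup ModularCurve ModularCurve.Period
open scoped Manifold MatrixGroups ModularForm Topology Real

namespace Fermat.Agent.S21

noncomputable section

local notation "𝕢" => Periodic.qParam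

theorem hasDerivAt_qParam (h : ℝ) (z : ℂ) :
    HasDerivAt (𝕢 h) (𝕢 h z * (2 * π * I / h)) z := by
  unfold Periodic.qParam
  have h1 : HasDerivAt (fun z : ℂ => 2 * π * I * z / h) (2 * π * I / h) z := by
    have := ((hasDerivAt_id z).const_mul (2 * π * I)).div_const (h : ℂ)
    simpa using this
  exact h1.cexp

/-- A holomorphic, `h`-periodic function on `ℍ` vanishing at `i∞` has a primitive vanishing
at `i∞`. -/
theorem exists_prim {h : ℝ} (hh : 0 < h) {φ : ℍ → ℂ} (hol : MDiff φ)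
    (hper : Periodic (φ ∘ ofComplex) h) (hz : IsZeroAtImInfty φ) :
    ∃ Φ : ℍ → ℂ, (∀ τ : ℍ, HasDerivAt (Φ ∘ ofComplex) (φ τ) τ) ∧ Tendsto Φ atImInfty (𝓝 0) := by
  set c := cuspFunction h φ with hc
  have hcd : DifferentiableOn ℂ c (Metric.ball 0 1) :=
    differentiableOn_cuspFunction_ball hh hper hol hz.isBoundedAtImInfty
  have hc0 : c 0 = 0 := by
    have := cuspFunction_apply_zero hh
      (analyticAt_cuspFunction_zero hh hper hol hz.isBoundedAtImInfty) hper
    rw [hc, this, hz.valueAtInfty_eq_zero]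
  have hψd : DifferentiableOn ℂ (dslope c 0) (Metric.ball 0 1) :=
    (Complex.differentiableOn_dslope (Metric.ball_mem_nhds 0 one_pos)).mpr hcd
  obtain ⟨Ψ, hΨ⟩ := hψd.isExactOn_ball
  have hq1 : ∀ z : ℍ, 𝕢 h z ∈ Metric.ball (0 : ℂ) 1 := fun z => by
    simpa using Periodic.norm_qParam_lt_one hh z.im_pos
  have hhC : (h : ℂ) ≠ 0 := by exact_mod_cast hh.ne'
  have h2pi : (2 * π * I : ℂ) ≠ 0 := Complex.two_pi_I_ne_zero
  set G : ℂ → ℂ := fun w => (h / (2 * π * I)) * (Ψ (𝕢 h w) - Ψ 0) with hG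
  have hGd : ∀ z : ℍ, HasDerivAt G (φ z) z := by
    intro z
    have h1 := (hΨ _ (hq1 z)).comp (z : ℂ) (hasDerivAt_qParam h z)
    have h2 := (h1.sub_const (Ψ 0)).const_mul ((h : ℂ) / (2 * π * I))
    have hq0 : 𝕢 h z ≠ 0 := Periodic.qParam_ne_zero _
    have h3 : ((h : ℂ) / (2 * π * I)) * (dslope c 0 (𝕢 h z) * (𝕢 h z * (2 * π * I / h))) = φ z := by
      rw [dslope_of_ne _ hq0, slope_def_field, hc0, hc, eq_cuspFunction z hh.ne' hper]
      field_simp
      ring
    rw [h3] at h2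
    exact h2
  have hev : ∀ z : ℍ, ((fun z : ℍ => G z) ∘ ofComplex) =ᶠ[𝓝 (z : ℂ)] G := by
    intro z
    filter_upwards [isOpen_upperHalfPlaneSet.mem_nhds z.im_pos] with w hw
    simp [ofComplex_apply_of_im_pos hw]
  refine ⟨fun z => G z, fun z => (hGd z).congr_of_eventuallyEq (hev z), ?_⟩
  have hcont : ContinuousAt Ψ 0 := (hΨ 0 (Metric.mem_ball_self one_pos)).continuousAt
  have h1 : Tendsto (fun z : ℍ => Ψ (𝕢 h z)) atImInfty (𝓝 (Ψ 0)) :=
    hcont.tendsto.comp (qParam_tendsto_atImInfty hh)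
  have h2 : Tendsto (fun z : ℍ => ((h : ℂ) / (2 * π * I)) * (Ψ (𝕢 h z) - Ψ 0)) atImInfty
      (𝓝 (((h : ℂ) / (2 * π * I)) * (Ψ 0 - Ψ 0))) := (h1.sub_const _).const_mul _
  simpa using h2

/-- A function on `ℍ` with vanishing derivative is constant. -/
theorem exists_const_of_hasDerivAt_zero {G : ℍ → ℂ}
    (hG : ∀ τ : ℍ, HasDerivAt (G ∘ ofComplex) 0 τ) : ∃ c : ℂ, ∀ z : ℍ, G z = c := by
  have hconv : Convex ℝ {z : ℂ | 0 < z.im} := convex_halfSpace_im_gt 0
  obtain ⟨a, ha⟩ := isOpen_upperHalfPlaneSet.exists_is_const_of_deriv_eq_zero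
    (f := G ∘ ofComplex) hconv.isPreconnected
    (fun z hz => (hG ⟨z, hz⟩).differentiableAt.differentiableWithinAt)
    (fun z hz => (hG ⟨z, hz⟩).deriv)
  exact ⟨a, fun z => by simpa using ha z z.im_pos⟩

/-- Chain rule for the Möbius action of `SL(2, ℤ)`: weight two slash. -/
theorem hasDerivAt_comp_smul {f F : ℍ → ℂ} (hF : ∀ τ : ℍ, HasDerivAt (F ∘ ofComplex) (f τ) τ)
    (δ : SL(2, ℤ)) (τ : ℍ) :
    HasDerivAt ((fun w : ℍ => F (δ • w)) ∘ ofComplex) ((f ∣[(2 : ℤ)] δ) τ) τ := by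
  set a : ℂ := ((δ 0 0 : ℤ) : ℂ) with ha
  set b : ℂ := ((δ 0 1 : ℤ) : ℂ) with hb
  set c : ℂ := ((δ 1 0 : ℤ) : ℂ) with hc
  set d : ℂ := ((δ 1 1 : ℤ) : ℂ) with hd
  have hdet : a * d - b * c = 1 := by
    have := δ.det_coe
    rw [Matrix.det_fin_two] at this
    have h2 := congrArg (Int.cast : ℤ → ℂ) this
    push_cast at h2
    simpa [ha, hb, hc, hd] using h2
  have hden : denom δ τ = c * τ + d := by
    simp [denom, hc, hd]
  have hden0 : c * τ + d ≠ 0 := hden ▸ denom_ne_zero _ τ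
  set m : ℂ → ℂ := fun w => (a * w + b) / (c * w + d) with hm
  have hmτ : m τ = ((δ • τ : ℍ) : ℂ) := by
    rw [coe_specialLinearGroup_apply]
    simp [hm, ha, hb, hc, hd]
  have hmd : HasDerivAt m (1 / (c * τ + d) ^ 2) τ := by
    have h1 : HasDerivAt (fun w : ℂ => a * w + b) a τ := by
      simpa using ((hasDerivAt_id (τ : ℂ)).const_mul a).add_const b
    have h2 : HasDerivAt (fun w : ℂ => c * w + d) c τ := by
      simpa using ((hasDerivAt_id (τ : ℂ)).const_mul c).add_const d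
    have h3 := h1.div h2 hden0
    have h4 : (a * (c * τ + d) - (a * τ + b) * c) / (c * τ + d) ^ 2 = 1 / (c * τ + d) ^ 2 := by
      congr 1
      linear_combination hdet
    rw [h4] at h3
    exact h3
  have hcomp : HasDerivAt ((F ∘ ofComplex) ∘ m) (f (δ • τ) * (1 / (c * τ + d) ^ 2)) τ := by
    have := hF (δ • τ)
    rw [← hmτ] at this
    exact this.comp (τ : ℂ) hmd
  have hval : (f ∣[(2 : ℤ)] δ) τ = f (δ • τ) * (1 / (c * τ + d) ^ 2) := by
    rw [ModularForm.SL_slash_apply, hden]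
    simp [zpow_neg]
  rw [hval]
  refine hcomp.congr_of_eventuallyEq ?_
  filter_upwards [isOpen_upperHalfPlaneSet.mem_nhds τ.im_pos] with w hw
  have h1 : ofComplex w = ⟨w, hw⟩ := ofComplex_apply_of_im_pos hw
  have h2 : m w = ((δ • (⟨w, hw⟩ : ℍ) : ℍ) : ℂ) := by
    rw [coe_specialLinearGroup_apply]
    simp [hm, ha, hb, hc, hd]
  simp only [comp_apply, h1, h2, ofComplex_apply]

section Main

variable {N : ℕ}

theorem slash_eq_self (f : CuspForm (Gamma0 N) 2) (γ : Gamma0 N) :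
    (⇑f) ∣[(2 : ℤ)] (γ : SL(2, ℤ)) = ⇑f := by
  rw [ModularForm.SL_slash]
  exact SlashInvariantFormClass.slash_action_eq f _ (Subgroup.mem_map_of_mem _ γ.2)

theorem periodic_slash [NeZero N] (f : CuspForm (Gamma0 N) 2) :
    ∃ M : ℕ, 0 < M ∧ ∀ δ : SL(2, ℤ), Periodic (((⇑f) ∣[(2 : ℤ)] δ) ∘ ofComplex) (M : ℝ) := by
  obtain ⟨M, hM, h⟩ := Subgroup.IsArithmetic.exists_nat_mem_strictPeriods_conj
    (Subgroup.map (Matrix.SpecialLinearGroup.mapGL ℝ) (Gamma0 N))
  refine ⟨M, hM, fun δ => ?_⟩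
  have h1 := h δ⁻¹
  rw [map_inv] at h1
  have := SlashInvariantFormClass.periodic_comp_ofComplex
    (CuspForm.translate f (Matrix.SpecialLinearGroup.mapGL ℝ δ)) h1
  exact this

/-- Every weight two cusp form has an equivariant primitive. -/
theorem exists_hasEquivariantPrimitive (N : ℕ) [NeZero N] (f : CuspForm (Gamma0 N) 2) :
    ∃ F : ℍ → ℂ, HasEquivariantPrimitive N f F := by
  have hper : Periodic ((⇑f) ∘ ofComplex) (1 : ℝ) :=
    SlashInvariantFormClass.periodic_comp_ofComplex f (one_mem_strictPeriods_Gamma0 N)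
  obtain ⟨F, hF, hF0⟩ := exists_prim one_pos (CuspFormClass.holo f) hper
    (CuspFormClass.zero_at_infty f)
  refine ⟨F, hF, hF0, ?_, ?_⟩
  · intro γ
    apply exists_const_of_hasDerivAt_zero (G := fun z => F ((γ : SL(2, ℤ)) • z) - F z)
    intro τ
    have h1 := hasDerivAt_comp_smul hF (γ : SL(2, ℤ)) τ
    rw [slash_eq_self] at h1
    have h2 := h1.sub (hF τ)
    rw [sub_self] at h2
    exact h2
  · intro δ
    obtain ⟨M, hM, hMper⟩ := periodic_slash f
    obtain ⟨Φ, hΦ, hΦ0⟩ := exists_prim (h := (M : ℝ)) (by exact_mod_cast hM)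
      (φ := (⇑f) ∣[(2 : ℤ)] δ) ((CuspFormClass.holo f).slash 2 _) (hMper δ)
      (CuspFormClass.zero_at_infty_slash f δ)
    obtain ⟨L, hL⟩ := exists_const_of_hasDerivAt_zero (G := fun z => F (δ • z) - Φ z) (fun τ => by
      have h2 := (hasDerivAt_comp_smul hF δ τ).sub (hΦ τ)
      rw [sub_self] at h2
      exact h2)
    refine ⟨L, ?_⟩
    have h2 : (fun w : ℍ => F (δ • w)) = fun w => Φ w + L := by
      funext w
      rw [← hL w]; ring
    rw [h2]
    simpa using hΦ0.add_const L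

theorem hasEquivariantPrimitive_unique {f : CuspForm (Gamma0 N) 2} {F G : ℍ → ℂ}
    (hF : HasEquivariantPrimitive N f F) (hG : HasEquivariantPrimitive N f G) : F = G := by
  obtain ⟨c, hc⟩ := exists_const_of_hasDerivAt_zero (G := fun z => F z - G z) (fun τ => by
    have h2 := (hF.1 τ).sub (hG.1 τ)
    rw [sub_self] at h2
    exact h2)
  have h1 : Tendsto (fun z : ℍ => F z - G z) atImInfty (𝓝 (0 - 0)) := hF.2.1.sub hG.2.1
  have h2 : (fun z : ℍ => F z - G z) = fun _ => c := funext hc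
  rw [h2, sub_zero] at h1
  have h3 : c = 0 := tendsto_nhds_unique tendsto_const_nhds h1
  funext z
  have := hc z
  rw [h3] at this
  exact sub_eq_zero.mp this

theorem periodMap_apply {f : CuspForm (Gamma0 N) 2} {F : ℍ → ℂ}
    (hF : HasEquivariantPrimitive N f F) (γ : Gamma0 N) (z : ℍ) :
    periodMap N f (Additive.ofMul γ) = F ((γ : SL(2, ℤ)) • z) - F z := by
  obtain ⟨F₀, h₀, h⟩ := periodMap_def N f hF
  obtain rfl := hasEquivariantPrimitive_unique h₀ hF
  rw [h, IsEquivariantPrimitive.periodHom_apply, IsEquivariantPrimitive.sub_eq_period]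

theorem hasEquivariantPrimitive_add {f g : CuspForm (Gamma0 N) 2} {F G : ℍ → ℂ}
    (hF : HasEquivariantPrimitive N f F) (hG : HasEquivariantPrimitive N g G) :
    HasEquivariantPrimitive N (f + g) (F + G) := by
  refine ⟨fun τ => (hF.1 τ).add (hG.1 τ), by
    have h2 := hF.2.1.add hG.2.1
    rw [add_zero] at h2
    exact h2, fun γ => ?_,
    fun δ => ?_⟩
  · obtain ⟨c, hc⟩ := hF.2.2.1 γ
    obtain ⟨d, hd⟩ := hG.2.2.1 γ
    exact ⟨c + d, fun z => by
      simp only [Pi.add_apply]; rw [← hc z, ← hd z]; ring⟩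
  · obtain ⟨L, hL⟩ := hF.2.2.2 δ
    obtain ⟨L', hL'⟩ := hG.2.2.2 δ
    exact ⟨L + L', hL.add hL'⟩

theorem hasEquivariantPrimitive_smul {f : CuspForm (Gamma0 N) 2} {F : ℍ → ℂ} (c : ℂ)
    (hF : HasEquivariantPrimitive N f F) :
    HasEquivariantPrimitive N (c • f) (c • F) := by
  refine ⟨fun τ => (hF.1 τ).const_mul c, by
    have h2 := hF.2.1.const_mul c
    rw [mul_zero] at h2
    exact h2, fun γ => ?_,
    fun δ => ?_⟩
  · obtain ⟨e, he⟩ := hF.2.2.1 γ
    exact ⟨c * e, fun z => by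
      simp only [Pi.smul_apply, smul_eq_mul]; rw [← he z]; ring⟩
  · obtain ⟨L, hL⟩ := hF.2.2.2 δ
    exact ⟨c * L, hL.const_mul c⟩

/-- The chosen equivariant primitive. -/
def prim (N : ℕ) [NeZero N] (f : CuspForm (Gamma0 N) 2) : ℍ → ℂ :=
  (exists_hasEquivariantPrimitive N f).choose

theorem prim_spec (N : ℕ) [NeZero N] (f : CuspForm (Gamma0 N) 2) :
    HasEquivariantPrimitive N f (prim N f) :=
  (exists_hasEquivariantPrimitive N f).choose_spec

theorem prim_add [NeZero N] (f g : CuspForm (Gamma0 N) 2) :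
    prim N (f + g) = prim N f + prim N g :=
  hasEquivariantPrimitive_unique (prim_spec N _) (hasEquivariantPrimitive_add (prim_spec N f) (prim_spec N g))

theorem prim_smul [NeZero N] (c : ℂ) (f : CuspForm (Gamma0 N) 2) :
    prim N (c • f) = c • prim N f :=
  hasEquivariantPrimitive_unique (prim_spec N _) (hasEquivariantPrimitive_smul c (prim_spec N f))

theorem periodMap_eq_prim [NeZero N] (f : CuspForm (Gamma0 N) 2) (γ : Gamma0 N) (z : ℍ) :
    periodMap N f (Additive.ofMul γ) = prim N f ((γ : SL(2, ℤ)) • z) - prim N f z :=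
  periodMap_apply (prim_spec N f) γ z

/-- The period map as a linear map. -/
def periodMapLin (N : ℕ) [NeZero N] :
    CuspForm (Gamma0 N) 2 →ₗ[ℂ] (Additive (Gamma0 N) →+ ℂ) where
  toFun := periodMap N
  map_add' f g := by
    refine AddMonoidHom.ext fun γ => ?_
    have h1 := periodMap_eq_prim (f + g) (Additive.toMul γ) UpperHalfPlane.I
    have h2 := periodMap_eq_prim f (Additive.toMul γ) UpperHalfPlane.I
    have h3 := periodMap_eq_prim g (Additive.toMul γ) UpperHalfPlane.I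
    simp only [ofMul_toMul] at h1 h2 h3
    rw [AddMonoidHom.add_apply, h1, h2, h3, prim_add]
    simp only [Pi.add_apply]; ring
  map_smul' c f := by
    refine AddMonoidHom.ext fun γ => ?_
    have h1 := periodMap_eq_prim (c • f) (Additive.toMul γ) UpperHalfPlane.I
    have h2 := periodMap_eq_prim f (Additive.toMul γ) UpperHalfPlane.I
    simp only [ofMul_toMul] at h1 h2
    rw [RingHom.id_apply, AddMonoidHom.smul_apply, h1, h2, prim_smul]
    simp only [Pi.smul_apply, smul_eq_mul]; ring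

@[simp] theorem periodMapLin_apply [NeZero N] (f : CuspForm (Gamma0 N) 2) :
    periodMapLin N f = periodMap N f := rfl

theorem existsPeriodMapLinear (N : ℕ) [NeZero N] : ExistsPeriodMapLinear N :=
  ⟨periodMapLin N, fun _ => rfl⟩

/-- Explicit formula for `periodHomPair`. -/
theorem periodHomPair_eq (N : ℕ) [NeZero N] :
    periodHomPair N = LinearMap.coprod
      ((LinearMap.id + charInvolution N ℂ ℂ) ∘ₗ periodMapLin N)
      ((LinearMap.id - charInvolution N ℂ ℂ) ∘ₗ periodMapLin N) := by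
  obtain ⟨pml, hpml, h⟩ := periodHomPair_def N (existsPeriodMapLinear N)
  have : pml = periodMapLin N := LinearMap.ext fun f => hpml f
  rw [h, this]

end Main

end

end Fermat.Agent.S21
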