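import Fermat.Agent.S21.Prim
import Fermat.Agent.S21.Parabolic
import Fermat.Agent.S21.Inj

set_option autoImplicit false

namespace Fermat.Agent.S21

open UpperHalfPlane CongruenceSubgroup Filter Topology ModularCurve ModularCurve.Period
open scoped MatrixGroups ModularForm Manifold

/-- [B3] -/
theorem periodHomPair_injective (N : ℕ) [NeZero N] : Function.Injective (periodHomPair N) :=
  periodHomPair_injective_of N (existsPeriodMapLinear N) (exists_hasEquivariantPrimitive N)

end Fermat.Agent.S21
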