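import Fermat.Agent.S21.Upper
import Fermat.Agent.S20.CombCusps
import Fermat.Prelude.Def_ModularCurve_GenusNumerics

set_option autoImplicit false

namespace Fermat.Agent.S21

open ModularGroup ModularCurve ModularCurve.Period CongruenceSubgroup
open scoped MatrixGroups

/-- [C3] `T ^ N` acts trivially on `SL(2,ℤ) ⧸ Γ₀(N)`. -/
theorem T_pow_smul_quotient_Gamma0 (N : ℕ) (x : SL(2, ℤ) ⧸ Gamma0 N) : (T ^ N) • x = x :=
  Up.T_pow_smul_quot N x

theorem neg_one_mem_Gamma0 (N : ℕ) : (-1 : SL(2, ℤ)) ∈ Gamma0 N := by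
  rw [Gamma0_mem]; simp

/-- [C3] -/
theorem finite_parabolicHoms (N : ℕ) [NeZero N] :
    Module.Finite ℂ (parabolicHoms ℂ (Gamma0 N) ℂ) :=
  (Up.finrank_parabolicHoms_le_orbitCounts N).1

/-- [C3] upper bound in terms of orbit counts on `X = SL(2,ℤ) ⧸ Γ₀(N)`. -/
theorem finrank_parabolicHoms_le_orbitCounts (N : ℕ) [NeZero N] :
    (Module.finrank ℂ (parabolicHoms ℂ (Gamma0 N) ℂ) : ℚ) ≤
      2 + (Nat.card (SL(2, ℤ) ⧸ Gamma0 N) : ℚ) / 6
      - (Nat.card (MulAction.fixedBy (SL(2, ℤ) ⧸ Gamma0 N) S) : ℚ) / 2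
      - 2 * (Nat.card (MulAction.fixedBy (SL(2, ℤ) ⧸ Gamma0 N) (S * T)) : ℚ) / 3
      - (Nat.card (MulAction.orbitRel.Quotient (Subgroup.zpowers T) (SL(2, ℤ) ⧸ Gamma0 N)) : ℚ) :=
  (Up.finrank_parabolicHoms_le_orbitCounts N).2

/-- [C3] final form, given the count of `T`-orbits (cusps). -/
theorem finrank_parabolicHoms_le_of_cusps (N : ℕ) [NeZero N]
    (h_T : Nat.card (MulAction.orbitRel.Quotient (Subgroup.zpowers T) (SL(2, ℤ) ⧸ Gamma0 N))
      = cuspCount N) :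
    (Module.finrank ℂ (parabolicHoms ℂ (Gamma0 N) ℂ) : ℚ) ≤ 2 * genusFormula N :=
  (Up.finrank_parabolicHoms_le N (S20.index_Gamma0 N) (S20.card_fixedBy_S N)
    (S20.card_fixedBy_ST N) h_T).2

/-- [C3] final form. -/
theorem finrank_parabolicHoms_le (N : ℕ) [NeZero N] :
    (Module.finrank ℂ (parabolicHoms ℂ (Gamma0 N) ℂ) : ℚ) ≤ 2 * genusFormula N :=
  finrank_parabolicHoms_le_of_cusps N (S20.card_orbits_T N)

end Fermat.Agent.S21
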