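import Fermat.Agent.S21.Injective
import Fermat.Agent.S21.UpperBound

set_option autoImplicit false

namespace Fermat.Agent.S21

open CongruenceSubgroup ModularCurve ModularCurve.Period
open scoped MatrixGroups

/-- The period pairing, corestricted to the parabolic homomorphisms. -/
noncomputable def periodHomPairPar (N : ℕ) :
    (CuspForm (Gamma0 N) 2 × CuspForm (Gamma0 N) 2) →ₗ[ℂ] parabolicHoms ℂ (Gamma0 N) ℂ :=
  (periodHomPair N).codRestrict _ fun p => range_periodHomPair_le N ⟨p, rfl⟩

theorem periodHomPairPar_injective (N : ℕ) [NeZero N] :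
    Function.Injective (periodHomPairPar N) := by
  intro p q h
  apply periodHomPair_injective N
  exact congrArg Subtype.val h

theorem finite_cuspForm_prod (N : ℕ) [NeZero N] :
    Module.Finite ℂ (CuspForm (Gamma0 N) 2 × CuspForm (Gamma0 N) 2) := by
  haveI := finite_parabolicHoms N
  exact Module.Finite.of_injective (periodHomPairPar N) (periodHomPairPar_injective N)

theorem finite_cuspForm (N : ℕ) [NeZero N] : Module.Finite ℂ (CuspForm (Gamma0 N) 2) := by
  haveI := finite_cuspForm_prod N
  exact Module.Finite.of_injective (LinearMap.inl ℂ (CuspForm (Gamma0 N) 2) (CuspForm (Gamma0 N) 2))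
    LinearMap.inl_injective

theorem two_mul_finrank_cuspForm_le (N : ℕ) [NeZero N] :
    2 * Module.finrank ℂ (CuspForm (Gamma0 N) 2)
      ≤ Module.finrank ℂ (parabolicHoms ℂ (Gamma0 N) ℂ) := by
  haveI := finite_parabolicHoms N
  haveI := finite_cuspForm N
  have h := LinearMap.finrank_le_finrank_of_injective (periodHomPairPar_injective N)
  rw [Module.finrank_prod] at h
  omega

/-- The upper bound `dim S₂(Γ₀(N)) ≤ g`, for the S20 team. -/
theorem finrank_cuspForm_le (N : ℕ) [NeZero N] :
    (Module.finrank ℂ (CuspForm (Gamma0 N) 2) : ℚ) ≤ genusFormula N := by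
  have h1 := two_mul_finrank_cuspForm_le N
  have h2 := finrank_parabolicHoms_le N
  have h3 : (2 * Module.finrank ℂ (CuspForm (Gamma0 N) 2) : ℚ)
      ≤ (Module.finrank ℂ (parabolicHoms ℂ (Gamma0 N) ℂ) : ℚ) := by exact_mod_cast h1
  linarith

/-- Eichler-Shimura, given the lower bound `g ≤ dim S₂(Γ₀(N))`. -/
theorem eichlerShimura_of_le (N : ℕ) [NeZero N]
    (h : genusFormula N ≤ (Module.finrank ℂ (CuspForm (Gamma0 N) 2) : ℚ)) :
    Function.Injective (periodHomPair N)
      ∧ LinearMap.range (periodHomPair N) = parabolicHoms ℂ (Gamma0 N) ℂ := by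
  refine ⟨periodHomPair_injective N, ?_⟩
  haveI := finite_parabolicHoms N
  haveI := finite_cuspForm N
  apply Submodule.eq_of_le_of_finrank_le (range_periodHomPair_le N)
  rw [LinearMap.finrank_range_of_inj (periodHomPair_injective N), Module.finrank_prod]
  have h2 := finrank_parabolicHoms_le N
  have h3 : (Module.finrank ℂ (parabolicHoms ℂ (Gamma0 N) ℂ) : ℚ)
      ≤ ((Module.finrank ℂ (CuspForm (Gamma0 N) 2) + Module.finrank ℂ (CuspForm (Gamma0 N) 2) : ℕ) : ℚ) := by
    push_cast
    linarith
  exact_mod_cast h3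

end Fermat.Agent.S21
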