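import Mathlib

set_option autoImplicit false

open Module

namespace Fermat.Agent.S21.Up

section LA

variable {G : Type*} [Group G] {X : Type*} [MulAction G X]

/-- precomposition operator on functions `X → ℂ`. -/
noncomputable def R (g : G) : (X → ℂ) →ₗ[ℂ] (X → ℂ) := LinearMap.funLeft ℂ ℂ (fun x => g • x)

@[simp] lemma R_apply (g : G) (v : X → ℂ) (x : X) : R g v x = v (g • x) := rfl

lemma R_mul (g h : G) (v : X → ℂ) : R (g * h) v = R h (R g v) := by
  ext x; simp [mul_smul]

lemma R_one (v : X → ℂ) : R (1 : G) v = v := by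
  ext x; simp

variable [Fintype X]

lemma trace_R (g : G) :
    LinearMap.trace ℂ (X → ℂ) (R g) = (Nat.card (MulAction.fixedBy X g) : ℂ) := by
  classical
  rw [LinearMap.trace_eq_matrix_trace ℂ (Pi.basisFun ℂ X), Matrix.trace]
  have : ∀ i : X, (LinearMap.toMatrix (Pi.basisFun ℂ X) (Pi.basisFun ℂ X) (R g)).diag i
      = if g • i = i then 1 else 0 := by
    intro i
    simp [Pi.single_apply]
  simp_rw [this]
  rw [Finset.sum_boole, Nat.card_eq_fintype_card]
  congr 1
  rw [Fintype.card_subtype]
  rfl

/-- the `-1`-eigenspace of an involution. -/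
noncomputable def spA (s : G) : Submodule ℂ (X → ℂ) := LinearMap.ker (LinearMap.id + R s)

omit [Fintype X] in
lemma mem_spA {s : G} {v : X → ℂ} : v ∈ spA s ↔ v + R s v = 0 := by
  simp [spA, LinearMap.mem_ker]

/-- kernel of `1 + u + u^2`. -/
noncomputable def spB (u : G) : Submodule ℂ (X → ℂ) :=
  LinearMap.ker (LinearMap.id + R u + R u ∘ₗ R u)

omit [Fintype X] in
lemma mem_spB {u : G} {v : X → ℂ} : v ∈ spB u ↔ v + R u v + R u (R u v) = 0 := by
  simp [spB, LinearMap.mem_ker]

lemma finrank_spA (s : G) (hs : ∀ x : X, s • s • x = x) :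
    2 * (finrank ℂ (spA (X := X) s) : ℂ)
      = (Fintype.card X : ℂ) - (Nat.card (MulAction.fixedBy X s) : ℂ) := by
  have hss : ∀ v : X → ℂ, R s (R s v) = v := by
    intro v; ext x; simp [hs]
  let P : (X → ℂ) →ₗ[ℂ] (X → ℂ) := (1 / 2 : ℂ) • (LinearMap.id - R s)
  have hP : LinearMap.IsProj (spA (X := X) s) P := by
    constructor
    · intro v
      rw [mem_spA]
      simp only [P, LinearMap.smul_apply, LinearMap.sub_apply, LinearMap.id_apply, map_smul,
        map_sub, hss]
      module
    · intro v hv
      rw [mem_spA] at hv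
      have : R s v = -v := by
        rw [eq_neg_iff_add_eq_zero, add_comm]; exact hv
      simp only [P, LinearMap.smul_apply, LinearMap.sub_apply, LinearMap.id_apply, this]
      module
  have h := hP.trace
  simp only [P, map_smul, map_sub, LinearMap.trace_id, trace_R, finrank_fintype_fun_eq_card,
    smul_eq_mul] at h
  rw [← h]; ring

lemma finrank_spB (u : G) (hu : ∀ x : X, u • u • u • x = x) :
    3 * (finrank ℂ (spB (X := X) u) : ℂ)
      = 2 * (Fintype.card X : ℂ) - 2 * (Nat.card (MulAction.fixedBy X u) : ℂ) := by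
  have huu : ∀ v : X → ℂ, R u (R u (R u v)) = v := by
    intro v; ext x; simp [hu]
  let P : (X → ℂ) →ₗ[ℂ] (X → ℂ) :=
    LinearMap.id - (1 / 3 : ℂ) • (LinearMap.id + R u + R (u * u))
  have hP : LinearMap.IsProj (spB (X := X) u) P := by
    constructor
    · intro v
      rw [mem_spB]
      simp only [P, LinearMap.smul_apply, LinearMap.sub_apply, LinearMap.add_apply,
        LinearMap.id_apply, map_smul, map_sub, map_add, huu, R_mul]
      module
    · intro v hv
      rw [mem_spB] at hv
      simp only [P, LinearMap.smul_apply, LinearMap.sub_apply, LinearMap.add_apply,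
        LinearMap.id_apply, R_mul, hv]
      module
  have hfix : MulAction.fixedBy X (u * u) = MulAction.fixedBy X u := by
    ext x
    simp only [MulAction.mem_fixedBy, mul_smul]
    constructor
    · intro h
      have h3 := hu x
      rw [h] at h3
      exact h3
    · intro h
      rw [h, h]
  have h := hP.trace
  simp only [P, map_smul, map_sub, map_add, LinearMap.trace_id, trace_R,
    finrank_fintype_fun_eq_card, smul_eq_mul, hfix] at h
  rw [← h]; ring

/-- number of orbits of the cyclic group generated by `t`. -/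
noncomputable def numOrb (t : G) (X : Type*) [MulAction G X] : ℕ :=
  Nat.card (MulAction.orbitRel.Quotient (Subgroup.zpowers t) X)

/-- the norm operator `∑_{i<n} t^i`. -/
noncomputable def NT (t : G) (n : ℕ) : (X → ℂ) →ₗ[ℂ] (X → ℂ) :=
  ∑ i ∈ Finset.range n, R (t ^ i)

omit [Fintype X] in
lemma NT_apply (t : G) (n : ℕ) (v : X → ℂ) (x : X) :
    NT t n v x = ∑ i ∈ Finset.range n, v (t ^ i • x) := by
  simp [NT, LinearMap.sum_apply, Finset.sum_apply]

lemma finrank_ker_NT_le (t : G) (n : ℕ) (hn : 0 < n) :
    finrank ℂ (LinearMap.ker (NT (X := X) t n))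
      + numOrb t X ≤ Fintype.card X := by
  classical
  unfold numOrb
  set Q := MulAction.orbitRel.Quotient (Subgroup.zpowers t) X with hQ
  have : Fintype Q := Fintype.ofFinite Q
  let mkQ : X → Q := fun x => Quotient.mk'' x
  have hmk : ∀ (i : ℕ) (x : X), mkQ (t ^ i • x) = mkQ x := by
    intro i x
    apply Quotient.sound'
    rw [MulAction.orbitRel_apply]
    exact ⟨⟨t ^ i, Subgroup.pow_mem _ (Subgroup.mem_zpowers t) i⟩, rfl⟩
  let ι : (Q → ℂ) →ₗ[ℂ] (X → ℂ) := LinearMap.funLeft ℂ ℂ mkQ
  have hι : Function.Injective ι :=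
    LinearMap.funLeft_injective_of_surjective ℂ ℂ mkQ Quotient.mk''_surjective
  have hrange : LinearMap.range ι ≤ LinearMap.range (NT (X := X) t n) := by
    rintro _ ⟨w, rfl⟩
    refine ⟨(1 / (n : ℂ)) • ι w, ?_⟩
    ext x
    rw [NT_apply]
    have hn' : (n : ℂ) ≠ 0 := by exact_mod_cast hn.ne'
    simp only [Pi.smul_apply, smul_eq_mul, ι, LinearMap.funLeft_apply, hmk, Finset.sum_const,
      Finset.card_range, nsmul_eq_mul]
    field_simp
  have h1 : Nat.card Q ≤ finrank ℂ (LinearMap.range (NT (X := X) t n)) := by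
    calc Nat.card Q = finrank ℂ (Q → ℂ) := by
          rw [finrank_fintype_fun_eq_card, Nat.card_eq_fintype_card]
      _ = finrank ℂ (LinearMap.range ι) := (LinearMap.finrank_range_of_inj hι).symm
      _ ≤ _ := Submodule.finrank_mono hrange
  have h2 := LinearMap.finrank_range_add_finrank_ker (NT (X := X) t n)
  rw [finrank_fintype_fun_eq_card] at h2
  omega

end LA

section General

variable {K M V : Type*} [Field K] [AddCommGroup M] [Module K M] [AddCommGroup V] [Module K V]
  [FiniteDimensional K M] [FiniteDimensional K V]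

lemma finrank_inf_comap_add_le (f : M →ₗ[K] V) (P : Submodule K M) (C : Submodule K V) :
    finrank K ↥(P ⊓ C.comap f) + finrank K ↥(P.map f) ≤ finrank K P + finrank K C := by
  set E := P ⊓ C.comap f with hE
  have hEP : E ≤ P := inf_le_left
  have h1 := LinearMap.finrank_range_add_finrank_ker (f.domRestrict E)
  have h2 := LinearMap.finrank_range_add_finrank_ker (f.domRestrict P)
  rw [LinearMap.range_domRestrict] at h1 h2
  have h3 : finrank K ↥(E.map f) ≤ finrank K C := by
    apply Submodule.finrank_mono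
    rintro _ ⟨x, hx, rfl⟩
    exact hx.2
  have h4 : finrank K (LinearMap.ker (f.domRestrict E)) ≤
      finrank K (LinearMap.ker (f.domRestrict P)) := by
    let j : LinearMap.ker (f.domRestrict E) →ₗ[K] LinearMap.ker (f.domRestrict P) :=
      LinearMap.codRestrict _ ((Submodule.inclusion hEP).comp (Submodule.subtype _)) (by
        intro x
        have := x.2
        rw [LinearMap.mem_ker] at this ⊢
        exact this)
    apply LinearMap.finrank_le_finrank_of_injective (f := j)
    intro x y hxy
    have := congrArg (fun z => ((z : ↥P) : M)) (congrArg Subtype.val hxy)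
    exact Subtype.ext (Subtype.ext this)
  omega

end General

section LA2

variable {G : Type*} [Group G] {X : Type*} [MulAction G X] [Fintype X]

/-- `(a, b) ↦ b - t a`. -/
noncomputable def theta (t : G) : ((X → ℂ) × (X → ℂ)) →ₗ[ℂ] (X → ℂ) :=
  LinearMap.snd ℂ _ _ - R t ∘ₗ LinearMap.fst ℂ _ _

omit [Fintype X] in
@[simp] lemma theta_apply (t : G) (p : (X → ℂ) × (X → ℂ)) : theta t p = p.2 - R t p.1 := rfl

omit [Fintype X] in
lemma one_sub_R_mem_spA (s : G) (hs : ∀ x : X, s • s • x = x) (v : X → ℂ) :
    v - R s v ∈ spA (X := X) s := by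
  rw [mem_spA]
  ext x
  simp [hs]

omit [Fintype X] in
lemma one_sub_R_mem_spB (u : G) (hu : ∀ x : X, u • u • u • x = x) (v : X → ℂ) :
    v - R u v ∈ spB (X := X) u := by
  rw [mem_spB]
  ext x
  simp [hu]

lemma card_le_finrank_map_theta [MulAction.IsPretransitive G X] (s t : G)
    (hgen : Subgroup.closure {s, t} = ⊤)
    (hs : ∀ x : X, s • s • x = x) (hu : ∀ x : X, (s * t) • (s * t) • (s * t) • x = x) :
    Fintype.card X ≤
      finrank ℂ ↥(((spA (X := X) s).prod (spB (X := X) (s * t))).map (theta t)) + 1 := by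
  classical
  set W := ((spA (X := X) s).prod (spB (X := X) (s * t))).map (theta t) with hW
  have hWu : ∀ v : X → ℂ, v - R (s * t) v ∈ W := by
    intro v
    refine ⟨(0, v - R (s * t) v), ⟨Submodule.zero_mem _, one_sub_R_mem_spB _ hu v⟩, ?_⟩
    simp
  have hWt : ∀ v : X → ℂ, v - R t v ∈ W := by
    intro v
    refine ⟨(v - R s v, v - R (s * t) v),
      ⟨one_sub_R_mem_spA _ hs v, one_sub_R_mem_spB _ hu v⟩, ?_⟩
    simp only [theta_apply, map_sub, R_mul]
    abel
  have hRsingle : ∀ (g : G) (y : X), R g (Pi.single y (1 : ℂ)) = Pi.single (g⁻¹ • y) (1 : ℂ) := by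
    intro g y
    ext x
    simp only [R_apply, Pi.single_apply]
    congr 1
    rw [eq_iff_iff]
    exact ⟨fun h => by rw [← h, inv_smul_smul], fun h => by rw [h, smul_inv_smul]⟩
  let H : Subgroup G :=
    { carrier := {g | ∀ y : X, (Pi.single y (1 : ℂ) : X → ℂ) - Pi.single (g • y) (1 : ℂ) ∈ W}
      one_mem' := by intro y; simp
      mul_mem' := by
        intro g h hg hh y
        have := W.add_mem (hh y) (hg (h • y))
        rw [mul_smul]
        convert this using 1
        abel
      inv_mem' := by
        intro g hg y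
        have := W.neg_mem (hg (g⁻¹ • y))
        rw [smul_inv_smul] at this
        convert this using 1
        abel }
  have htH : t ∈ H := by
    rw [← inv_inv t]
    apply H.inv_mem
    intro y
    have := hWt (Pi.single y (1 : ℂ))
    rwa [hRsingle] at this
  have huH : s * t ∈ H := by
    rw [← inv_inv (s * t)]
    apply H.inv_mem
    intro y
    have := hWu (Pi.single y (1 : ℂ))
    rwa [hRsingle] at this
  have hsH : s ∈ H := by
    have := H.mul_mem huH (H.inv_mem htH)
    simpa using this
  have hHtop : H = ⊤ := by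
    rw [eq_top_iff, ← hgen, Subgroup.closure_le]
    rintro g (rfl | rfl)
    · exact hsH
    · exact htH
  have hdiff : ∀ x y : X, (Pi.single x (1 : ℂ) : X → ℂ) - Pi.single y (1 : ℂ) ∈ W := by
    intro x y
    obtain ⟨g, rfl⟩ := MulAction.exists_smul_eq G x y
    have : g ∈ H := hHtop ▸ Subgroup.mem_top g
    exact this x
  let σ : (X → ℂ) →ₗ[ℂ] ℂ := ∑ x : X, LinearMap.proj x
  have hσ : ∀ v, σ v = ∑ x, v x := by
    intro v; simp [σ, LinearMap.sum_apply]
  have hker : LinearMap.ker σ ≤ W := by
    intro v hv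
    rw [LinearMap.mem_ker, hσ] at hv
    rcases isEmpty_or_nonempty X with hX | ⟨⟨x₀⟩⟩
    · have : v = 0 := Subsingleton.elim _ _
      rw [this]; exact W.zero_mem
    · have hv' : v = ∑ x, v x • ((Pi.single x (1 : ℂ) : X → ℂ) - Pi.single x₀ (1 : ℂ)) := by
        simp only [smul_sub, Finset.sum_sub_distrib, ← Finset.sum_smul, hv, zero_smul, sub_zero]
        ext y
        simp [Finset.sum_apply, Pi.single_apply]
      rw [hv']
      exact W.sum_mem fun x _ => W.smul_mem _ (hdiff x x₀)
  have h1 := LinearMap.finrank_range_add_finrank_ker σ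
  rw [finrank_fintype_fun_eq_card] at h1
  have h2 : finrank ℂ (LinearMap.range σ) ≤ 1 := by
    have := Submodule.finrank_le (LinearMap.range σ)
    simpa using this
  have h3 := Submodule.finrank_mono hker
  omega

lemma finrank_submodule_prod {K M M' : Type*} [Field K] [AddCommGroup M] [Module K M]
    [AddCommGroup M'] [Module K M'] [FiniteDimensional K M] [FiniteDimensional K M']
    (p : Submodule K M) (q : Submodule K M') :
    finrank K ↥(p.prod q) = finrank K p + finrank K q := by
  let e : ↥(p.prod q) ≃ₗ[K] (p × q) :=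
    { toFun := fun x => (⟨x.1.1, x.2.1⟩, ⟨x.1.2, x.2.2⟩)
      map_add' := fun _ _ => rfl
      map_smul' := fun _ _ => rfl
      invFun := fun y => ⟨(y.1.1, y.2.1), ⟨y.1.2, y.2.2⟩⟩
      left_inv := fun _ => rfl
      right_inv := fun _ => rfl }
  rw [e.finrank_eq, Module.finrank_prod]

/-- the space of pairs `(c(s), c(st))` allowed for parabolic cocycles. -/
noncomputable def spE (s t : G) (n : ℕ) : Submodule ℂ ((X → ℂ) × (X → ℂ)) :=
  ((spA (X := X) s).prod (spB (X := X) (s * t))) ⊓ (LinearMap.ker (NT (X := X) t n)).comap (theta t)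

theorem finrank_spE_le [MulAction.IsPretransitive G X] (s t : G)
    (hgen : Subgroup.closure {s, t} = ⊤)
    (hs : ∀ x : X, s • s • x = x) (hu : ∀ x : X, (s * t) • (s * t) • (s * t) • x = x)
    (n : ℕ) (hn : 0 < n) :
    finrank ℂ (spE (X := X) s t n) + numOrb t X
      ≤ finrank ℂ (spA (X := X) s) + finrank ℂ (spB (X := X) (s * t)) + 1 := by
  have h1 := finrank_inf_comap_add_le (theta (X := X) t)
    ((spA (X := X) s).prod (spB (X := X) (s * t))) (LinearMap.ker (NT (X := X) t n))
  have h2 := card_le_finrank_map_theta (X := X) s t hgen hs hu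
  have h3 := finrank_ker_NT_le (X := X) t n hn
  rw [finrank_submodule_prod] at h1
  unfold spE
  omega

end LA2

end Fermat.Agent.S21.Up
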