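import Fermat.Agent.S21.UpLinAlg

set_option autoImplicit false

open Module

namespace Fermat.Agent.S21.Up

section Cocycle

variable {G : Type*} [Group G] {X : Type*} [MulAction G X]

/-- (right) cocycles with values in functions on `X`. -/
def IsCoc (c : G → (X → ℂ)) : Prop := ∀ g h : G, c (g * h) = R h (c g) + c h

lemma IsCoc.one {c : G → (X → ℂ)} (hc : IsCoc c) : c 1 = 0 := by
  have := hc 1 1
  rw [mul_one, R_one] at this
  simpa using this

lemma IsCoc.eq_zero {c : G → (X → ℂ)} (hc : IsCoc c) {s t : G}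
    (hgen : Subgroup.closure {s, t} = ⊤) (hs : c s = 0) (ht : c t = 0) (g : G) : c g = 0 := by
  let H : Subgroup G :=
    { carrier := {g | c g = 0}
      one_mem' := hc.one
      mul_mem' := by
        intro g h hg hh
        simp only [Set.mem_ofPred_eq] at hg hh ⊢
        rw [hc, hg, hh]; simp
      inv_mem' := by
        intro g hg
        simp only [Set.mem_ofPred_eq] at hg ⊢
        have := hc g g⁻¹
        rw [mul_inv_cancel, hc.one, hg] at this
        simpa using this.symm }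
  have hHtop : H = ⊤ := by
    rw [eq_top_iff, ← hgen, Subgroup.closure_le]
    rintro g (rfl | rfl)
    · exact hs
    · exact ht
  have : g ∈ H := hHtop ▸ Subgroup.mem_top g
  exact this

lemma IsCoc.pow {c : G → (X → ℂ)} (hc : IsCoc c) (t : G) (n : ℕ) :
    c (t ^ n) = NT t n (c t) := by
  induction n with
  | zero => simp [NT, hc.one]
  | succ n ih =>
    rw [pow_succ, hc, ih, NT, NT, Finset.sum_range_succ', LinearMap.add_apply, pow_zero]
    congr 1
    · simp only [LinearMap.sum_apply, map_sum, pow_succ, R_mul]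
    · exact (R_one _).symm

lemma IsCoc.mem_spE {c : G → (X → ℂ)} (hc : IsCoc c) (s t : G) (n : ℕ)
    (h2 : c (s * s) = 0) (h3 : c ((s * t) * (s * t) * (s * t)) = 0) (hn : c (t ^ n) = 0) :
    (c s, c (s * t)) ∈ spE (X := X) s t n := by
  refine ⟨⟨?_, ?_⟩, ?_⟩
  · show c s ∈ spA s
    rw [mem_spA, add_comm, ← hc, h2]
  · show c (s * t) ∈ spB (s * t)
    rw [mem_spB]
    rw [hc ((s * t) * (s * t)) (s * t), hc (s * t) (s * t)] at h3
    rw [← h3, map_add]
    abel
  · show theta t (c s, c (s * t)) ∈ LinearMap.ker (NT t n)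
    rw [LinearMap.mem_ker, theta_apply]
    simp only
    rw [hc s t, add_sub_cancel_left, ← hc.pow, hn]

lemma isCoc_cob (v : X → ℂ) : IsCoc (fun g : G => R g v - v) := by
  intro g h
  simp only [R_mul, map_sub]
  abel

lemma IsCoc.add {c c' : G → (X → ℂ)} (hc : IsCoc c) (hc' : IsCoc c') :
    IsCoc (fun g => c g + c' g) := by
  intro g h
  simp only [hc g h, hc' g h, map_add]
  abel

end Cocycle

section Shapiro

variable {G : Type*} [Group G] (Γ : Subgroup G)

/-- the `Γ`-valued cocycle attached to the section `Quotient.out`. -/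
noncomputable def gam (g : G) (x : G ⧸ Γ) : Γ :=
  ⟨(Quotient.out (g • x))⁻¹ * (g * Quotient.out x), by
    rw [← QuotientGroup.eq, QuotientGroup.out_eq', ← smul_eq_mul, ← MulAction.Quotient.smul_coe,
      QuotientGroup.out_eq']⟩

lemma gam_mul (g h : G) (x : G ⧸ Γ) : gam Γ (g * h) x = gam Γ g (h • x) * gam Γ h x := by
  apply Subtype.ext
  simp only [gam, mul_smul, Subgroup.coe_mul]
  group

/-- the Shapiro cocycle of a homomorphism `Γ → ℂ`. -/
noncomputable def Phi (φ : Additive Γ →+ ℂ) (g : G) : (G ⧸ Γ) → ℂ :=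
  fun x => φ (Additive.ofMul (gam Γ g x))

lemma isCoc_Phi (φ : Additive Γ →+ ℂ) : IsCoc (Phi Γ φ) := by
  intro g h
  ext x
  simp only [Phi, gam_mul, ofMul_mul, map_add, Pi.add_apply, R_apply]

lemma Phi_add (φ ψ : Additive Γ →+ ℂ) (g : G) : Phi Γ (φ + ψ) g = Phi Γ φ g + Phi Γ ψ g := rfl

lemma Phi_smul (a : ℂ) (φ : Additive Γ →+ ℂ) (g : G) : Phi Γ (a • φ) g = a • Phi Γ φ g := rfl

lemma gam_of_fixed (z : G) (x : G ⧸ Γ) (hz : z • x = x) :
    ((gam Γ z x : Γ) : G) = (Quotient.out x)⁻¹ * z * Quotient.out x := by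
  simp only [gam, hz]
  group

lemma Phi_mem_base (φ : Additive Γ →+ ℂ) (γ : Γ) :
    Phi Γ φ (γ : G) ((1 : G) : G ⧸ Γ) = φ (Additive.ofMul γ) := by
  have hfix : (γ : G) • ((1 : G) : G ⧸ Γ) = ((1 : G) : G ⧸ Γ) := by
    rw [MulAction.Quotient.smul_coe, smul_eq_mul, mul_one, QuotientGroup.eq]
    simpa using γ.2
  have hout : (Quotient.out ((1 : G) : G ⧸ Γ) : G) ∈ Γ := by
    have := QuotientGroup.out_eq' ((1 : G) : G ⧸ Γ)
    rw [QuotientGroup.eq] at this
    simpa using Γ.inv_mem this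
  set a : Γ := ⟨_, hout⟩ with ha
  have : gam Γ (γ : G) ((1 : G) : G ⧸ Γ) = a⁻¹ * γ * a := by
    apply Subtype.ext
    rw [gam_of_fixed Γ _ _ hfix]
    rfl
  simp only [Phi, this, ofMul_mul, ofMul_inv, map_add, map_neg]
  ring

variable [Fintype (G ⧸ Γ)]

/-- the combined map `(φ, v) ↦ ((Φ + ∂v)(s), (Φ + ∂v)(st))`. -/
noncomputable def Psi (Hp : Submodule ℂ (Additive Γ →+ ℂ)) (s t : G) :
    (Hp × LinearMap.ker (LinearMap.proj (R := ℂ) (φ := fun _ : G ⧸ Γ => ℂ) ((1 : G) : G ⧸ Γ)))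
      →ₗ[ℂ] (((G ⧸ Γ) → ℂ) × ((G ⧸ Γ) → ℂ)) where
  toFun p := (Phi Γ p.1.1 s + (R s p.2.1 - p.2.1), Phi Γ p.1.1 (s * t) + (R (s * t) p.2.1 - p.2.1))
  map_add' p q := by
    ext x <;> simp [Phi_add] <;> ring
  map_smul' a p := by
    ext x <;> simp [Phi_smul] <;> ring

theorem finrank_par_le (s t : G) (hgen : Subgroup.closure {s, t} = ⊤)
    (hs : ∀ x : G ⧸ Γ, s • s • x = x)
    (hu : ∀ x : G ⧸ Γ, (s * t) • (s * t) • (s * t) • x = x)
    (n : ℕ) (hn : 0 < n) (ht : ∀ x : G ⧸ Γ, t ^ n • x = x)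
    (Hp : Submodule ℂ (Additive Γ →+ ℂ))
    (hHp : ∀ φ ∈ Hp, ∀ z ∈ ({s * s, (s * t) * (s * t) * (s * t), t ^ n} : Set G),
      ∀ (a : G) (γ : Γ), (γ : G) = a⁻¹ * z * a → φ (Additive.ofMul γ) = 0) :
    Module.Finite ℂ Hp ∧
    finrank ℂ Hp + Fintype.card (G ⧸ Γ)
        + numOrb t (G ⧸ Γ)
      ≤ finrank ℂ (spA (X := G ⧸ Γ) s) + finrank ℂ (spB (X := G ⧸ Γ) (s * t)) + 2 := by
  classical
  set x₀ : G ⧸ Γ := ((1 : G) : G ⧸ Γ) with hx₀
  set V₀ := LinearMap.ker (LinearMap.proj (R := ℂ) (φ := fun _ : G ⧸ Γ => ℂ) x₀) with hV₀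
  -- the cocycle attached to a pair
  have hcoc : ∀ (φ : Additive Γ →+ ℂ) (v : (G ⧸ Γ) → ℂ),
      IsCoc (fun g : G => Phi Γ φ g + (R g v - v)) :=
    fun φ v => (isCoc_Phi Γ φ).add (isCoc_cob v)
  have hvanish : ∀ φ ∈ Hp, ∀ (v : (G ⧸ Γ) → ℂ),
      ∀ z ∈ ({s * s, (s * t) * (s * t) * (s * t), t ^ n} : Set G), (∀ x : G ⧸ Γ, z • x = x) →
      Phi Γ φ z + (R z v - v) = 0 := by
    intro φ hφ v z hz hfix
    ext x
    simp only [Pi.add_apply, Pi.sub_apply, R_apply, hfix, sub_self, add_zero, Pi.zero_apply, Phi]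
    exact hHp φ hφ z hz _ _ (gam_of_fixed Γ z x (hfix x))
  have hfix2 : ∀ x : G ⧸ Γ, (s * s) • x = x := fun x => by rw [mul_smul, hs]
  have hfix3 : ∀ x : G ⧸ Γ, ((s * t) * (s * t) * (s * t)) • x = x := fun x => by
    rw [mul_smul, mul_smul, hu]
  have hmem : ∀ p, Psi Γ Hp s t p ∈ spE (X := G ⧸ Γ) s t n := by
    intro p
    exact (hcoc p.1.1 p.2.1).mem_spE s t n
      (hvanish _ p.1.2 _ _ (by simp) hfix2) (hvanish _ p.1.2 _ _ (by simp) hfix3)
      (hvanish _ p.1.2 _ _ (by simp) ht)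
  have hinj : Function.Injective (Psi Γ Hp s t) := by
    rw [← LinearMap.ker_eq_bot, LinearMap.ker_eq_bot']
    intro p hp
    have hp1 : Phi Γ p.1.1 s + (R s p.2.1 - p.2.1) = 0 := congrArg Prod.fst hp
    have hp2 : Phi Γ p.1.1 (s * t) + (R (s * t) p.2.1 - p.2.1) = 0 := congrArg Prod.snd hp
    have hc := hcoc p.1.1 p.2.1
    have hpt : Phi Γ p.1.1 t + (R t p.2.1 - p.2.1) = 0 := by
      have := hc s t
      simp only [hp1, hp2, map_zero, zero_add] at this
      exact this.symm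
    have hall := hc.eq_zero hgen hp1 hpt
    have hφ : p.1.1 = 0 := by
      refine AddMonoidHom.ext fun γ => ?_
      have h1 := congrFun (hall ((Additive.toMul γ : Γ) : G)) x₀
      have hfix : ((Additive.toMul γ : Γ) : G) • x₀ = x₀ := by
        rw [hx₀, MulAction.Quotient.smul_coe, smul_eq_mul, mul_one, QuotientGroup.eq]
        simp
      simp only [Pi.add_apply, Pi.sub_apply, R_apply, hfix, sub_self, add_zero,
        Pi.zero_apply] at h1
      rw [hx₀, Phi_mem_base] at h1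
      simpa using h1
    have hv : p.2.1 = 0 := by
      ext x
      obtain ⟨g, rfl⟩ := MulAction.exists_smul_eq G x₀ x
      have h1 := congrFun (hall g) x₀
      have hzero : Phi Γ p.1.1 g = 0 := by
        rw [hφ]; rfl
      have h0 : p.2.1 x₀ = 0 := p.2.2
      simp only [hzero, Pi.add_apply, Pi.sub_apply, R_apply, Pi.zero_apply, zero_add, h0,
        sub_zero] at h1
      simpa using h1
    exact Prod.ext (Subtype.ext hφ) (Subtype.ext hv)
  have hfinprod : Module.Finite ℂ (Hp × V₀) := Module.Finite.of_injective _ hinj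
  have hfin : Module.Finite ℂ Hp :=
    Module.Finite.of_injective (LinearMap.inl ℂ Hp V₀) LinearMap.inl_injective
  refine ⟨hfin, ?_⟩
  have h1 : finrank ℂ (Hp × V₀) ≤ finrank ℂ (spE (X := G ⧸ Γ) s t n) := by
    apply LinearMap.finrank_le_finrank_of_injective
      (f := LinearMap.codRestrict (spE (X := G ⧸ Γ) s t n) (Psi Γ Hp s t) hmem)
    intro p q hpq
    exact hinj (congrArg Subtype.val hpq)
  rw [Module.finrank_prod] at h1
  have h2 := LinearMap.finrank_range_add_finrank_ker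
    (LinearMap.proj (R := ℂ) (φ := fun _ : G ⧸ Γ => ℂ) x₀)
  rw [finrank_fintype_fun_eq_card, ← hV₀] at h2
  have h3 : finrank ℂ (LinearMap.range (LinearMap.proj (R := ℂ) (φ := fun _ : G ⧸ Γ => ℂ) x₀))
      ≤ 1 := by
    have := Submodule.finrank_le
      (LinearMap.range (LinearMap.proj (R := ℂ) (φ := fun _ : G ⧸ Γ => ℂ) x₀))
    simpa using this
  have h4 := finrank_spE_le (X := G ⧸ Γ) s t hgen hs hu n hn
  omega

end Shapiro

end Fermat.Agent.S21.Up
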