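import Fermat.Agent.S21.UpShapiro
import Fermat.Prelude.Def_ModularCurve_PeriodMap
import Fermat.Prelude.Def_ModularCurve_GenusNumerics

set_option autoImplicit false

open Module CongruenceSubgroup ModularGroup
open scoped MatrixGroups

namespace Fermat.Agent.S21.Up

lemma SS_eq : (S * S : SL(2, ℤ)) = -1 := by decide

lemma STcube_eq : ((S * T) * (S * T) * (S * T) : SL(2, ℤ)) = -1 := by decide

lemma Gamma_le_Gamma0' (N : ℕ) : Gamma N ≤ Gamma0 N := by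
  intro g hg
  rw [Gamma_mem] at hg
  rw [Gamma0_mem]
  exact hg.2.2.1

lemma neg_one_smul_quot (N : ℕ) (x : SL(2, ℤ) ⧸ Gamma0 N) : (-1 : SL(2, ℤ)) • x = x := by
  induction x using QuotientGroup.induction_on with
  | H g =>
    rw [MulAction.Quotient.smul_coe, smul_eq_mul, QuotientGroup.eq]
    have : ((-1 : SL(2, ℤ)) * g)⁻¹ * g = -1 := by
      rw [neg_mul, one_mul]
      have h : (-g)⁻¹ = -(g⁻¹) := by
        apply inv_eq_of_mul_eq_one_left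
        simp
      rw [h, neg_mul, inv_mul_cancel]
    rw [this, Gamma0_mem]
    simp

lemma coe_T_pow' (N : ℕ) : ((T ^ N : SL(2, ℤ)) : Matrix (Fin 2) (Fin 2) ℤ) = !![1, (N : ℤ); 0, 1] := by
  have := coe_T_zpow (N : ℤ)
  rwa [zpow_natCast] at this

lemma T_pow_smul_quot (N : ℕ) (x : SL(2, ℤ) ⧸ Gamma0 N) : (T ^ N : SL(2, ℤ)) • x = x := by
  induction x using QuotientGroup.induction_on with
  | H g =>
    rw [MulAction.Quotient.smul_coe, smul_eq_mul, QuotientGroup.eq]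
    have hT : (T ^ N : SL(2, ℤ)) ∈ Gamma N := by
      rw [Gamma_mem, coe_T_pow']
      simp
    have hn : g⁻¹ * (T ^ N)⁻¹ * g ∈ Gamma N := by
      have := (Gamma_normal N).conj_mem _ ((Gamma N).inv_mem hT) g⁻¹
      simpa using this
    have : (T ^ N * g)⁻¹ * g = g⁻¹ * (T ^ N)⁻¹ * g := by group
    rw [this]
    exact Gamma_le_Gamma0' N hn

lemma trace_conj (a z : SL(2, ℤ)) :
    ((a⁻¹ * z * a : SL(2, ℤ)) : Matrix (Fin 2) (Fin 2) ℤ).trace
      = (z : Matrix (Fin 2) (Fin 2) ℤ).trace := by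
  rw [Matrix.SpecialLinearGroup.coe_mul, Matrix.trace_mul_comm, ← Matrix.SpecialLinearGroup.coe_mul]
  congr 2
  rw [← mul_assoc, mul_inv_cancel, one_mul]

open ModularCurve ModularCurve.Period in
theorem finrank_parabolicHoms_le_orbitCounts (N : ℕ) [NeZero N] :
    Module.Finite ℂ (parabolicHoms ℂ (Gamma0 N) ℂ) ∧
    (finrank ℂ (parabolicHoms ℂ (Gamma0 N) ℂ) : ℚ) ≤
      2 + (Nat.card (SL(2, ℤ) ⧸ Gamma0 N) : ℚ) / 6
      - (Nat.card (MulAction.fixedBy (SL(2, ℤ) ⧸ Gamma0 N) S) : ℚ) / 2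
      - 2 * (Nat.card (MulAction.fixedBy (SL(2, ℤ) ⧸ Gamma0 N) (S * T)) : ℚ) / 3
      - (Nat.card (MulAction.orbitRel.Quotient (Subgroup.zpowers T) (SL(2, ℤ) ⧸ Gamma0 N)) : ℚ) := by
  classical
  have : Fintype (SL(2, ℤ) ⧸ Gamma0 N) := Subgroup.fintypeQuotientOfFiniteIndex
  have hs : ∀ x : SL(2, ℤ) ⧸ Gamma0 N, S • S • x = x := fun x => by
    rw [← mul_smul, SS_eq, neg_one_smul_quot]
  have hu : ∀ x : SL(2, ℤ) ⧸ Gamma0 N, (S * T) • (S * T) • (S * T) • x = x := fun x => by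
    rw [← mul_smul, ← mul_smul, STcube_eq, neg_one_smul_quot]
  obtain ⟨hfin, hle⟩ := finrank_par_le (Gamma0 N) S T
    SpecialLinearGroup.SL2Z_generators hs hu N (Nat.pos_of_ne_zero (NeZero.ne N))
    (T_pow_smul_quot N) (parabolicHoms ℂ (Gamma0 N) ℂ) (by
      intro φ hφ z hz a γ hγ
      apply hφ γ
      rw [hγ, trace_conj]
      rcases hz with rfl | rfl | rfl
      · rw [SS_eq]; simp
      · rw [STcube_eq]; simp
      · rw [coe_T_pow']; simp)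
  refine ⟨hfin, ?_⟩
  have hA := finrank_spA (X := SL(2, ℤ) ⧸ Gamma0 N) S hs
  have hB := finrank_spB (X := SL(2, ℤ) ⧸ Gamma0 N) (S * T) hu
  have hT' : numOrb T (SL(2, ℤ) ⧸ Gamma0 N)
      = Nat.card (MulAction.orbitRel.Quotient (Subgroup.zpowers T) (SL(2, ℤ) ⧸ Gamma0 N)) := rfl
  rw [← Nat.card_eq_fintype_card] at hA hB hle
  rw [hT'] at hle
  set μ := Nat.card (SL(2, ℤ) ⧸ Gamma0 N)
  set f2 := Nat.card (MulAction.fixedBy (SL(2, ℤ) ⧸ Gamma0 N) S)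
  set f3 := Nat.card (MulAction.fixedBy (SL(2, ℤ) ⧸ Gamma0 N) (S * T))
  set c := Nat.card (MulAction.orbitRel.Quotient (Subgroup.zpowers T) (SL(2, ℤ) ⧸ Gamma0 N))
  set dA := finrank ℂ (spA (X := SL(2, ℤ) ⧸ Gamma0 N) S)
  set dB := finrank ℂ (spB (X := SL(2, ℤ) ⧸ Gamma0 N) (S * T))
  have hA' : 2 * (dA : ℚ) = (μ : ℚ) - f2 := by
    have h : ((2 * dA + f2 : ℕ) : ℂ) = (μ : ℂ) := by
      push_cast; rw [hA]; ring
    have h1 : 2 * dA + f2 = μ := by exact_mod_cast h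
    have h2 : ((2 * dA + f2 : ℕ) : ℚ) = (μ : ℚ) := by rw [h1]
    push_cast at h2
    linarith
  have hB' : 3 * (dB : ℚ) = 2 * (μ : ℚ) - 2 * f3 := by
    have h : ((3 * dB + 2 * f3 : ℕ) : ℂ) = ((2 * μ : ℕ) : ℂ) := by
      push_cast; rw [hB]; ring
    have h1 : 3 * dB + 2 * f3 = 2 * μ := by exact_mod_cast h
    have h2 : ((3 * dB + 2 * f3 : ℕ) : ℚ) = ((2 * μ : ℕ) : ℚ) := by rw [h1]
    push_cast at h2
    linarith
  have hle' : (finrank ℂ (parabolicHoms ℂ (Gamma0 N) ℂ) : ℚ) + μ + c ≤ (dA : ℚ) + dB + 2 := by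
    exact_mod_cast hle
  linarith

open ModularCurve ModularCurve.Period in
theorem finrank_parabolicHoms_le (N : ℕ) [NeZero N]
    (h_index : (Gamma0 N).index = dedekindPsi N)
    (h_S : Nat.card (MulAction.fixedBy (SL(2, ℤ) ⧸ Gamma0 N) S) = nuTwo N)
    (h_ST : Nat.card (MulAction.fixedBy (SL(2, ℤ) ⧸ Gamma0 N) (S * T)) = nuThree N)
    (h_T : Nat.card (MulAction.orbitRel.Quotient (Subgroup.zpowers T) (SL(2, ℤ) ⧸ Gamma0 N))
      = cuspCount N) :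
    Module.Finite ℂ (parabolicHoms ℂ (Gamma0 N) ℂ) ∧
      (finrank ℂ (parabolicHoms ℂ (Gamma0 N) ℂ) : ℚ) ≤ 2 * genusFormula N := by
  obtain ⟨hfin, hle⟩ := finrank_parabolicHoms_le_orbitCounts N
  refine ⟨hfin, ?_⟩
  have hcard : Nat.card (SL(2, ℤ) ⧸ Gamma0 N) = dedekindPsi N := h_index
  rw [hcard, h_S, h_ST, h_T] at hle
  unfold genusFormula
  linarith

end Fermat.Agent.S21.Up
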